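import Fermat.Agent.S27.C.AnLoc
import Fermat.Agent.S27.FibUnif
import Fermat.Agent.S27.E.Connected

/-!
# S27, part C: every place is the centre of a chart whose half ball is a weak neighbourhood
Owner: helper262.
-/

set_option autoImplicit false
set_option linter.unusedSectionVars false

noncomputable section

namespace Fermat.Agent.S27.C

open AlgebraicCurve Polynomial Fermat.Agent.S24.FF Filter Topology
open Fermat.Agent.S27 (WDiff Chart)

variable {F : Type*} [Field F] [Algebra ℂ F] [IsFF1 ℂ F]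

namespace Sheets

variable {t : F} {a : ℂ} {s : Finset (Place ℂ F)} {r : ℝ} {γ : Place ℂ F → ℂ → Place ℂ F} {y : F}
  {φ : Place ℂ F → ℂ → ℂ}

/-- the chart given by a sheet -/
def toChart (hS : Sheets t a s r γ y φ) (ht : Transcendental ℂ t) {v : Place ℂ F} (hv : v ∈ s) :
    Chart F where
  t := t
  c := a
  r := r
  r_pos := hS.r_pos
  pl := γ v
  ord_t := (hS.chart v hv).ord_sub
  analytic_ev f τ hτ hf := by
    have := (hS.chart v hv).analyticAt f τ hτ hf
    simpa only [ev_eq_ev] using this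
  analytic_loc lam τ hτ := hS.analyticAt_loc ht hv hτ lam

/-- separation of the sheets near the centre -/
theorem exists_sep (hS : Sheets t a s r γ y φ) {v : Place ℂ F} (hv : v ∈ s) :
    ∃ ε : ℝ, 0 < ε ∧ ε ≤ r / 2 ∧ ∀ w ∈ s, w ≠ v → ∀ τ : ℂ, ‖τ - a‖ < ε → ε ≤ ‖φ w τ - φ v a‖ := by
  have ha : a ∈ Metric.ball a r := Metric.mem_ball_self hS.r_pos
  have h1 : ∀ w ∈ s, ∀ᶠ ε in 𝓝[>] (0 : ℝ), w ≠ v → ∀ τ : ℂ, ‖τ - a‖ < ε → ε ≤ ‖φ w τ - φ v a‖ := by
    intro w hw
    by_cases hwv : w = v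
    · exact Eventually.of_forall fun ε h => absurd hwv h
    have hd : 0 < ‖φ w a - φ v a‖ := by
      rw [norm_pos_iff, sub_ne_zero]
      exact fun h => hwv (hS.inj a ha hw hv h)
    have hc : ContinuousAt (fun τ => ‖φ w τ - φ v a‖) a :=
      ((hS.analytic w hw a ha).continuousAt.sub continuousAt_const).norm
    have h2 : ∀ᶠ τ in 𝓝 a, ‖φ w a - φ v a‖ / 2 < ‖φ w τ - φ v a‖ :=
      hc.eventually (lt_mem_nhds (half_lt_self hd))
    obtain ⟨δ, hδ, hball⟩ := Metric.eventually_nhds_iff_ball.mp h2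
    have hmin : 0 < min δ (‖φ w a - φ v a‖ / 2) := lt_min hδ (half_pos hd)
    filter_upwards [Ioo_mem_nhdsGT hmin] with ε hε _ τ hτ
    have h3 : τ ∈ Metric.ball a δ := by
      rw [Metric.mem_ball, dist_eq_norm]
      exact hτ.trans (hε.2.trans_le (min_le_left _ _))
    exact (hε.2.trans_le (min_le_right _ _)).le.trans (hball τ h3).le
  have h2 : ∀ᶠ ε in 𝓝[>] (0 : ℝ), ε ≤ r / 2 := by
    filter_upwards [Ioo_mem_nhdsGT (half_pos hS.r_pos)] with ε hε using hε.2.le
  have h3 := ((eventually_all_finset s).mpr h1).and (h2.and self_mem_nhdsWithin)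
  obtain ⟨ε, hε1, hε2, hε3⟩ := h3.exists
  exact ⟨ε, hε3, hε2, hε1⟩

theorem isNhdChart (hS : Sheets t a s r γ y φ) (ht : Transcendental ℂ t) {v : Place ℂ F}
    (hv : v ∈ s) : Fermat.Agent.S27.E.IsNhdChart (hS.toChart ht hv) := by
  have ha : a ∈ Metric.ball a r := Metric.mem_ball_self hS.r_pos
  obtain ⟨ε, hε, hεr, hsep⟩ := hS.exists_sep hv
  have hreg : 0 ≤ (γ v a).ord y :=
    ord_nonneg_of_isIntegral ((hS.chart v hv).ord_t_nonneg ha) hS.integral
  refine ⟨y, ε, hε, hreg, ?_⟩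
  intro p hpt hpy h1 h2
  change ‖Fermat.Agent.S27.ev p t - a‖ < ε at h1
  change ‖Fermat.Agent.S27.ev p y - Fermat.Agent.S27.ev (γ v a) y‖ < ε at h2
  rw [ev_eq_ev] at h1
  rw [ev_eq_ev, ev_eq_ev, hS.ev_y v hv a ha] at h2
  obtain ⟨τ, hτdef⟩ : ∃ τ, τ = ev p t := ⟨_, rfl⟩
  rw [← hτdef] at h1
  have hτ : τ ∈ Metric.ball a r := by
    rw [Metric.mem_ball, dist_eq_norm]
    have := hS.r_pos
    linarith
  have hpos : 0 < p.ord (t - algebraMap ℂ F τ) := by
    rw [hτdef]
    rcases van_sub_ev hpt with h | h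
    · exact absurd h (t_sub_ne_zero ht _)
    · exact h
  clear hτdef
  obtain ⟨w, hw, rfl⟩ := hS.complete τ hτ p hpos
  have hwv : w = v := by
    by_contra hne
    have := hsep w hw hne τ h1
    rw [hS.ev_y w hw τ hτ] at h2
    linarith
  subst hwv
  refine ⟨τ, ?_, rfl⟩
  change τ ∈ Metric.closedBall a (r / 2)
  rw [Metric.mem_closedBall, dist_eq_norm]
  linarith

end Sheets

end Fermat.Agent.S27.C

namespace Fermat.Agent.S27

open AlgebraicCurve Fermat.Agent.S24.FF

variable {F : Type*} [Field F] [Algebra ℂ F] [IsFF1 ℂ F]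

/-- **Part C.**  Every place is the centre of a chart whose closed half ball is a weak
neighbourhood of the place. -/
theorem exists_chart_nhd (v : Place ℂ F) : ∃ χ : Chart F, χ.pl χ.c = v ∧ E.IsNhdChart χ := by
  obtain ⟨t, htv, hsimple⟩ := exists_uniformizer_simple_zeros v
  have ht : Transcendental ℂ t := by
    rcases exists_const_or_transcendental (K := ℂ) t with ⟨c, hc⟩ | h
    · exfalso
      rw [hc, ord_algebraMap] at htv
      exact zero_ne_one htv
    · exact h
  obtain ⟨s, hs, -⟩ := exists_finset_ord_pos t ht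
  have h0 : t - algebraMap ℂ F 0 = t := by rw [map_zero, sub_zero]
  obtain ⟨r, γ, y, φ, hS⟩ := C.exists_sheets' t ht 0 s (by rw [h0]; exact hs)
    (by rw [h0]; exact fun w hw => hsimple w ((hs w).mp hw))
  have hv : v ∈ s := (hs v).mpr (by rw [htv]; exact one_pos)
  exact ⟨hS.toChart ht hv, hS.center v hv, hS.isNhdChart ht hv⟩

end Fermat.Agent.S27
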