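import Mathlib

/-!
# S27, part C, Step 6: the Lagrange polynomial with analytic nodes (pure Mathlib)
Skeleton by helper262.
-/

set_option autoImplicit false

noncomputable section

namespace Fermat.Agent.S27.C

open Polynomial

variable {ι : Type*} [DecidableEq ι]

/-- `∏_{w ∈ s, w ≠ v} (X - φ_w σ) / (φ_v σ - φ_w σ)` -/
def lagr (s : Finset ι) (φ : ι → ℂ → ℂ) (v : ι) (σ : ℂ) : ℂ[X] :=
  ∏ w ∈ s.erase v, (C (φ v σ - φ w σ)⁻¹ * (X - C (φ w σ)))

theorem natDegree_lagr_lt (s : Finset ι) (φ : ι → ℂ → ℂ) {v : ι} (hv : v ∈ s) (σ : ℂ) :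
    (lagr s φ v σ).natDegree < s.card := by
  have h1 : (lagr s φ v σ).natDegree ≤ ∑ w ∈ s.erase v, 1 := by
    refine (natDegree_prod_le _ _).trans (Finset.sum_le_sum fun w _ => ?_)
    refine (natDegree_C_mul_le _ _).trans ?_
    exact (natDegree_X_sub_C_le _)
  have h2 : ∑ w ∈ s.erase v, 1 = s.card - 1 := by
    rw [Finset.sum_const, smul_eq_mul, mul_one, Finset.card_erase_of_mem hv]
  have h3 : 0 < s.card := Finset.card_pos.mpr ⟨v, hv⟩
  omega

theorem eval_lagr_self (s : Finset ι) (φ : ι → ℂ → ℂ) (v : ι) (σ : ℂ)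
    (hne : ∀ w ∈ s.erase v, φ v σ ≠ φ w σ) : (lagr s φ v σ).eval (φ v σ) = 1 := by
  rw [lagr, eval_prod]
  refine Finset.prod_eq_one fun w hw => ?_
  have h := sub_ne_zero.mpr (hne w hw)
  simp [inv_mul_cancel₀ h]

theorem eval_lagr_of_mem (s : Finset ι) (φ : ι → ℂ → ℂ) (v : ι) (σ : ℂ) {w : ι}
    (hw : w ∈ s.erase v) : (lagr s φ v σ).eval (φ w σ) = 0 := by
  rw [lagr, eval_prod]
  refine Finset.prod_eq_zero hw ?_
  simp

/-- coefficients of a product of polynomials with analytic coefficients are analytic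
(`Finset.induction_on`, `Polynomial.coeff_mul`, `Finset.analyticAt_sum`-type lemma / `fun_prop`). -/
theorem analyticAt_coeff_prod {τ₀ : ℂ} (s : Finset ι) (P : ι → ℂ → ℂ[X])
    (h : ∀ w ∈ s, ∀ j, AnalyticAt ℂ (fun σ => (P w σ).coeff j) τ₀) (j : ℕ) :
    AnalyticAt ℂ (fun σ => (∏ w ∈ s, P w σ).coeff j) τ₀ := by
  induction s using Finset.induction_on generalizing j with
  | empty =>
    simp only [Finset.prod_empty]
    exact analyticAt_const
  | insert a t ha ih =>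
    have ih' := ih (fun w hw => h w (Finset.mem_insert_of_mem hw))
    have ha' := h a (Finset.mem_insert_self a t)
    simp only [Finset.prod_insert ha, coeff_mul]
    refine Finset.analyticAt_fun_sum _ fun x _ => ?_
    exact (ha' x.1).mul (ih' x.2)

theorem analyticAt_coeff_lagr {τ₀ : ℂ} (s : Finset ι) (φ : ι → ℂ → ℂ) {v : ι} (hv : v ∈ s)
    (hφ : ∀ w ∈ s, AnalyticAt ℂ (φ w) τ₀) (hne : ∀ w ∈ s.erase v, φ v τ₀ ≠ φ w τ₀) (j : ℕ) :
    AnalyticAt ℂ (fun σ => (lagr s φ v σ).coeff j) τ₀ := by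
  refine analyticAt_coeff_prod (s.erase v) _ (fun w hw i => ?_) j
  have hw' : AnalyticAt ℂ (φ w) τ₀ := hφ w (Finset.mem_of_mem_erase hw)
  have hv' : AnalyticAt ℂ (φ v) τ₀ := hφ v hv
  have hinv : AnalyticAt ℂ (fun σ => (φ v σ - φ w σ)⁻¹) τ₀ :=
    (hv'.sub hw').inv (sub_ne_zero.mpr (hne w hw))
  simp only [coeff_C_mul, coeff_sub, coeff_X, coeff_C]
  refine hinv.mul (AnalyticAt.sub analyticAt_const ?_)
  by_cases hi : i = 0
  · simpa [hi] using hw'
  · simpa [hi] using (analyticAt_const : AnalyticAt ℂ (fun _ : ℂ => (0 : ℂ)) τ₀)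

end Fermat.Agent.S27.C
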