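import Fermat.Agent.S27.WLoc

/-!
# S27, part C, Step 6, Lemma 6a (pole case)
Skeleton by helper262.

If `t` has a pole at `p` then `σ ↦ lam.loc p (h * (t - σ)⁻¹)` is a polynomial function of `σ`.

Proof.  `u := t⁻¹`, `m := - ord_p t > 0`.  For every `N`:
`(t - σ)⁻¹ = ∑_{n<N} σ^n u^(n+1) + σ^N u^N (t - σ)⁻¹`
(multiply by `t - σ ≠ 0`; `t - σ ≠ 0` because `ord_p (t - σ) = ord_p t < 0`, `ord_add_eq_of_lt`).
`ord_p (h * (σ^N u^N (t-σ)⁻¹)) = ord_p h + N m + m ≥ 0` for `N := (- ord_p h).toNat` (if `σ^N ≠ 0`, `h ≠ 0`; otherwise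
the element is `0`).  So by `WDiff.loc_congr`, `loc_sum`, `loc_const_mul`:
`lam.loc p (h (t-σ)⁻¹) = ∑_{n<N} σ^n * lam.loc p (h u^(n+1))`.
-/

set_option autoImplicit false
set_option linter.unusedSectionVars false

noncomputable section

namespace Fermat.Agent.S27.C

open AlgebraicCurve Fermat.Agent.S24.FF Fermat.Agent.S27

variable {F : Type*} [Field F] [Algebra ℂ F]

theorem loc_pole_eq_sum (lam : WDiff ℂ F) (p : Place ℂ F) (t h : F) (hp : p.ord t < 0) :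
    ∃ N : ℕ, ∀ σ : ℂ, lam.loc p (h * (t - algebraMap ℂ F σ)⁻¹)
      = ∑ n ∈ Finset.range N, σ ^ n * lam.loc p (h * (t⁻¹) ^ (n + 1)) := by
  refine ⟨(- p.ord h).toNat, fun σ => ?_⟩
  set N : ℕ := (- p.ord h).toNat with hN
  set s : F := algebraMap ℂ F σ with hs
  have ht0 : t ≠ 0 := ne_zero_of_ord_ne_zero p hp.ne
  have hord : p.ord (t - s) = p.ord t := by
    rw [sub_eq_add_neg]
    apply ord_add_eq_of_lt p ht0
    rw [ord_neg, hs, ord_algebraMap]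
    exact hp
  have hts : t - s ≠ 0 := ne_zero_of_ord_ne_zero p (by rw [hord]; exact hp.ne)
  -- geometric series identity
  have hgeo : ∀ M : ℕ, (t - s)⁻¹
      = ∑ n ∈ Finset.range M, s ^ n * (t⁻¹) ^ (n + 1) + s ^ M * (t⁻¹) ^ M * (t - s)⁻¹ := by
    intro M
    induction M with
    | zero => simp
    | succ M ih =>
      rw [Finset.sum_range_succ, add_assoc]
      have key : s ^ M * (t⁻¹) ^ M * (t - s)⁻¹
          = s ^ M * (t⁻¹) ^ (M + 1) + s ^ (M + 1) * (t⁻¹) ^ (M + 1) * (t - s)⁻¹ := by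
        have e1 : (t⁻¹) ^ M = (t⁻¹) ^ (M + 1) * t := by
          rw [pow_succ, mul_assoc, inv_mul_cancel₀ ht0, mul_one]
        have e2 : t * (t - s)⁻¹ = 1 + s * (t - s)⁻¹ := by
          field_simp
          ring
        rw [e1]
        calc s ^ M * ((t⁻¹) ^ (M + 1) * t) * (t - s)⁻¹
            = s ^ M * (t⁻¹) ^ (M + 1) * (t * (t - s)⁻¹) := by ring
          _ = _ := by rw [e2]; ring
      rw [← key]
      exact ih
  have hsum : lam.loc p (h * ∑ n ∈ Finset.range N, s ^ n * (t⁻¹) ^ (n + 1))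
      = ∑ n ∈ Finset.range N, σ ^ n * lam.loc p (h * (t⁻¹) ^ (n + 1)) := by
    rw [Finset.mul_sum, lam.loc_sum]
    refine Finset.sum_congr rfl fun n _ => ?_
    rw [← lam.loc_const_mul, map_pow]
    congr 1
    ring
  rw [← hsum]
  apply lam.loc_congr
  have hdiff : h * (t - s)⁻¹ - h * ∑ n ∈ Finset.range N, s ^ n * (t⁻¹) ^ (n + 1)
      = h * (s ^ N * (t⁻¹) ^ N * (t - s)⁻¹) := by
    conv_lhs => rw [hgeo N]
    ring
  rw [hdiff]
  rcases eq_or_ne h 0 with rfl | hh0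
  · simp
  rcases eq_or_ne (s ^ N) 0 with hsN | hsN
  · rw [hsN]; simp
  have h1 : p.ord (s ^ N) = 0 := by
    rw [hs, ← map_pow, ord_algebraMap]
  have htN : (t⁻¹) ^ N ≠ 0 := pow_ne_zero _ (inv_ne_zero ht0)
  rw [p.ord_mul hh0 (mul_ne_zero (mul_ne_zero hsN htN) (inv_ne_zero hts)),
    p.ord_mul (mul_ne_zero hsN htN) (inv_ne_zero hts), p.ord_mul hsN htN, h1, ord_pow,
    p.ord_inv, p.ord_inv, hord]
  have h2 : - p.ord h ≤ (N : ℤ) := by rw [hN]; exact Int.self_le_toNat _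
  have h3 : (N : ℤ) ≤ (N : ℤ) * (- p.ord t) := by
    have : (1 : ℤ) ≤ - p.ord t := by omega
    nlinarith [Int.natCast_nonneg N]
  omega

theorem analyticAt_loc_pole (lam : WDiff ℂ F) (p : Place ℂ F) (t h : F) (hp : p.ord t < 0)
    (τ₀ : ℂ) : AnalyticAt ℂ (fun σ => lam.loc p (h * (t - algebraMap ℂ F σ)⁻¹)) τ₀ := by
  obtain ⟨N, hN⟩ := loc_pole_eq_sum lam p t h hp
  have : (fun σ => lam.loc p (h * (t - algebraMap ℂ F σ)⁻¹))
      = fun σ => ∑ n ∈ Finset.range N, σ ^ n * lam.loc p (h * (t⁻¹) ^ (n + 1)) := funext hN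
  rw [this]
  fun_prop

end Fermat.Agent.S27.C
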