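import Fermat.Agent.S27.C.Sheets
import Fermat.Agent.S27.C.LocPole
import Fermat.Agent.S27.C.Lagr

/-!
# S27, part C, Step 6: regular Weil differentials are analytic along the sheets
Owner: helper262.
-/

set_option autoImplicit false
set_option linter.unusedSectionVars false

noncomputable section

namespace Fermat.Agent.S27.C

open AlgebraicCurve Polynomial Fermat.Agent.S24.FF Filter Topology IntermediateField
open Fermat.Agent.S27 (WDiff)

variable {F : Type*} [Field F] [Algebra ℂ F] [IsFF1 ℂ F]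

/-- bridge between the two (equal) definitions of the value at a place -/
theorem ev_eq_ev (v : Place ℂ F) (f : F) : Fermat.Agent.S27.ev v f = ev v f := by
  by_cases h : 0 ≤ v.ord f
  · apply Fermat.Agent.S27.ev_eq_of_isVal
    rcases van_sub_ev h with h1 | h1
    · exact Or.inl (sub_eq_zero.mp h1)
    · exact Or.inr h1
  · rw [ev_of_ord_neg (not_le.mp h), Fermat.Agent.S27.ev_of_ord_neg (not_le.mp h)]

/-- The conclusion of `exists_sheets`, packaged. -/
structure Sheets (t : F) (a : ℂ) (s : Finset (Place ℂ F)) (r : ℝ)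
    (γ : Place ℂ F → ℂ → Place ℂ F) (y : F) (φ : Place ℂ F → ℂ → ℂ) : Prop where
  r_pos : 0 < r
  integral : IsIntegral (Algebra.adjoin ℂ {t}) y
  chart : ∀ v ∈ s, IsChart t (Metric.ball a r) (γ v)
  center : ∀ v ∈ s, γ v a = v
  analytic : ∀ v ∈ s, AnalyticOnNhd ℂ (φ v) (Metric.ball a r)
  ev_y : ∀ v ∈ s, ∀ τ ∈ Metric.ball a r, ev (γ v τ) y = φ v τ
  inj : ∀ τ ∈ Metric.ball a r, Set.InjOn (fun v => φ v τ) s
  complete : ∀ τ ∈ Metric.ball a r, ∀ w : Place ℂ F, 0 < w.ord (t - algebraMap ℂ F τ) →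
    ∃ v ∈ s, w = γ v τ

theorem exists_sheets' (t : F) (ht : Transcendental ℂ t) (a : ℂ) (s : Finset (Place ℂ F))
    (hs : ∀ v, v ∈ s ↔ 0 < v.ord (t - algebraMap ℂ F a))
    (hred : ∀ v ∈ s, v.ord (t - algebraMap ℂ F a) = 1) :
    ∃ (r : ℝ) (γ : Place ℂ F → ℂ → Place ℂ F) (y : F) (φ : Place ℂ F → ℂ → ℂ),
      Sheets t a s r γ y φ := by
  obtain ⟨r, γ, y, φ, h1, h2, h3, h4, h5, h6, h7, h8⟩ := exists_sheets t ht a s hs hred
  exact ⟨r, γ, y, φ, h1, h2, h3, h4, h5, h6, h7, h8⟩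

namespace Sheets

variable {t : F} {a : ℂ} {s : Finset (Place ℂ F)} {r : ℝ} {γ : Place ℂ F → ℂ → Place ℂ F} {y : F}
  {φ : Place ℂ F → ℂ → ℂ}

theorem t_sub_ne_zero (ht : Transcendental ℂ t) (σ : ℂ) : t - algebraMap ℂ F σ ≠ 0 := by
  intro h
  exact ht ((sub_eq_zero.mp h) ▸ isAlgebraic_algebraMap σ)

open Classical in
/-- reciprocity for the Lagrange kernel -/
theorem loc_eq_neg_sum (hS : Sheets t a s r γ y φ) (ht : Transcendental ℂ t)
    (Sinf : Finset (Place ℂ F)) (hSinf : ∀ p, p ∈ Sinf ↔ p.ord t < 0)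
    {v : Place ℂ F} (hv : v ∈ s) {σ : ℂ} (hσ : σ ∈ Metric.ball a r) (lam : WDiff ℂ F) :
    lam.loc (γ v σ) (t - algebraMap ℂ F σ)⁻¹ =
      - ∑ p ∈ Sinf, ∑ j ∈ Finset.range s.card,
        (lagr s φ v σ).coeff j * lam.loc p (y ^ j * (t - algebraMap ℂ F σ)⁻¹) := by
  set L := lagr s φ v σ with hL
  set u := t - algebraMap ℂ F σ with hu
  have hu0 : u ≠ 0 := t_sub_ne_zero ht σ
  set k := aeval y L * u⁻¹ with hk
  have hne : ∀ w ∈ s.erase v, φ v σ ≠ φ w σ := by
    intro w hw h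
    have hw' := Finset.mem_erase.mp hw
    exact hw'.1 (hS.inj σ hσ hw'.2 hv h.symm)
  have hyreg : ∀ p : Place ℂ F, 0 ≤ p.ord t → 0 ≤ p.ord y := fun p hp =>
    ord_nonneg_of_isIntegral hp hS.integral
  have hLreg : ∀ p : Place ℂ F, 0 ≤ p.ord t → 0 ≤ p.ord (aeval y L) := fun p hp =>
    ord_aeval_nonneg (hyreg p hp) L
  have htreg : ∀ w ∈ s, 0 ≤ (γ w σ).ord t := fun w hw => (hS.chart w hw).ord_t_nonneg hσ
  -- a vanishing function times `u⁻¹` is regular on the sheets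
  have hvan : ∀ w ∈ s, ∀ g : F, Van (γ w σ) g → 0 ≤ (γ w σ).ord (g * u⁻¹) := by
    intro w hw g hg
    rcases hg with rfl | hg
    · simp
    · have hg0 : g ≠ 0 := ne_zero_of_ord_ne_zero _ hg.ne'
      rw [(γ w σ).ord_mul hg0 (inv_ne_zero hu0), (γ w σ).ord_inv, (hS.chart w hw).ord_sub σ hσ]
      omega
  -- (a) regularity off `Sinf ∪ {γ v σ}`
  have hreg : ∀ p, p ∉ insert (γ v σ) Sinf → 0 ≤ p.ord k := by
    intro p hp
    rw [Finset.mem_insert, not_or, hSinf, not_lt] at hp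
    have hu_nonneg : 0 ≤ p.ord u := ord_nonneg_sub hp.2 (ord_algebraMap p σ).ge
    rcases hu_nonneg.lt_or_eq with hpos | hzero
    · obtain ⟨w, hw, rfl⟩ := hS.complete σ hσ p hpos
      have hwv : w ≠ v := fun h => hp.1 (by rw [h])
      apply hvan w hw
      rw [← ev_eq_zero_iff (hLreg _ hp.2), ev_aeval (hyreg _ hp.2), hS.ev_y w hw σ hσ]
      exact eval_lagr_of_mem s φ v σ (Finset.mem_erase.mpr ⟨hwv, hw⟩)
    · exact ord_nonneg_mul (hLreg p hp.2) (by rw [p.ord_inv, ← hzero]; simp)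
  -- (b) principal part at `γ v σ`
  have hpp : lam.loc (γ v σ) k = lam.loc (γ v σ) u⁻¹ := by
    apply lam.loc_congr
    have h1 : k - u⁻¹ = (aeval y L - algebraMap ℂ F 1) * u⁻¹ := by
      rw [hk, map_one]; ring
    rw [h1]
    apply hvan v hv
    rw [← ev_eq_iff (hLreg _ (htreg v hv)), ev_aeval (hyreg _ (htreg v hv)), hS.ev_y v hv σ hσ]
    exact eval_lagr_self s φ v σ hne
  -- (c) reciprocity
  have hnot : γ v σ ∉ Sinf := by
    rw [hSinf, not_lt]; exact htreg v hv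
  have hrec := lam.sum_loc_eq_zero k (insert (γ v σ) Sinf) hreg
  rw [Finset.sum_insert hnot, hpp] at hrec
  -- (d) expansion
  have hexp : ∀ p : Place ℂ F, lam.loc p k = ∑ j ∈ Finset.range s.card,
      L.coeff j * lam.loc p (y ^ j * u⁻¹) := by
    intro p
    have h2 : k = ∑ j ∈ Finset.range s.card, algebraMap ℂ F (L.coeff j) * (y ^ j * u⁻¹) := by
      rw [hk, aeval_eq_sum_range' (natDegree_lagr_lt s φ hv σ), Finset.sum_mul]
      apply Finset.sum_congr rfl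
      intro j _
      rw [Algebra.smul_def]; ring
    rw [h2, lam.loc_sum]
    apply Finset.sum_congr rfl
    intro j _
    rw [lam.loc_const_mul]
  rw [eq_neg_iff_add_eq_zero, ← hrec]
  congr 1
  exact Finset.sum_congr rfl fun p _ => (hexp p).symm

/-- **Step 6**: `analytic_loc` along a sheet. -/
theorem analyticAt_loc (hS : Sheets t a s r γ y φ) (ht : Transcendental ℂ t)
    {v : Place ℂ F} (hv : v ∈ s) {τ₀ : ℂ} (hτ : τ₀ ∈ Metric.ball a r) (lam : WDiff ℂ F) :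
    AnalyticAt ℂ (fun σ => lam.loc (γ v σ) (t - algebraMap ℂ F σ)⁻¹) τ₀ := by
  classical
  obtain ⟨Sinf, hSinf, -⟩ := exists_finset_ord_neg t ht
  have hne : ∀ w ∈ s.erase v, φ v τ₀ ≠ φ w τ₀ := by
    intro w hw h
    have hw' := Finset.mem_erase.mp hw
    exact hw'.1 (hS.inj τ₀ hτ hw'.2 hv h.symm)
  have han : AnalyticAt ℂ (fun σ => - ∑ p ∈ Sinf, ∑ j ∈ Finset.range s.card,
        (lagr s φ v σ).coeff j * lam.loc p (y ^ j * (t - algebraMap ℂ F σ)⁻¹)) τ₀ := by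
    apply AnalyticAt.neg
    apply Finset.analyticAt_fun_sum
    intro p hp
    apply Finset.analyticAt_fun_sum
    intro j _
    exact (analyticAt_coeff_lagr s φ hv (fun w hw => hS.analytic w hw τ₀ hτ) hne j).mul
      (analyticAt_loc_pole lam p t (y ^ j) ((hSinf p).mp hp) τ₀)
  refine han.congr ?_
  filter_upwards [Metric.isOpen_ball.mem_nhds hτ] with σ hσ
  exact (hS.loc_eq_neg_sum ht Sinf hSinf hv hσ lam).symm

end Sheets

end Fermat.Agent.S27.C
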