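import Mathlib
import Fermat.Agent.S24.FFDeg

/-!
# S27, part C: the value of a function at a place
Owner: helper262.

`ev v f : K` is the value of `f` at the place `v` (junk value `0` if `f` has a pole at `v`).
-/

set_option autoImplicit false
set_option linter.unusedSectionVars false

noncomputable section

namespace Fermat.Agent.S27.C

open AlgebraicCurve Polynomial Fermat.Agent.S24.FF
open scoped Polynomial.Bivariate

section Van

variable {K F : Type*} [Field K] [Field F] [Algebra K F]

/-- `g` lies in the maximal ideal of the place `v`. -/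
def Van (v : Place K F) (g : F) : Prop := g = 0 ∨ 0 < v.ord g

variable {v : Place K F}

theorem Van.zero : Van v 0 := Or.inl rfl

theorem Van.ord_nonneg {g : F} (h : Van v g) : 0 ≤ v.ord g := by
  rcases h with rfl | h
  · simp
  · exact h.le

theorem Van.add {g h : F} (hg : Van v g) (hh : Van v h) : Van v (g + h) := by
  rcases hg with rfl | hg
  · simpa using hh
  rcases hh with rfl | hh
  · rw [add_zero]; exact Or.inr hg
  by_cases h0 : g + h = 0
  · exact Or.inl h0
  · exact Or.inr (lt_of_lt_of_le (lt_min hg hh) (min_ord_le_ord_add v h0))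

theorem Van.neg {g : F} (hg : Van v g) : Van v (-g) := by
  rcases hg with rfl | hg
  · simpa using Van.zero
  · exact Or.inr (by rwa [ord_neg])

theorem Van.sub {g h : F} (hg : Van v g) (hh : Van v h) : Van v (g - h) := by
  rw [sub_eq_add_neg]; exact hg.add hh.neg

theorem Van.mul_right {g h : F} (hg : Van v g) (hh : 0 ≤ v.ord h) : Van v (g * h) := by
  rcases hg with rfl | hg
  · simpa using Van.zero
  rcases eq_or_ne h 0 with rfl | h0
  · simpa using Van.zero
  have hg0 : g ≠ 0 := ne_zero_of_ord_ne_zero v hg.ne'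
  exact Or.inr (by rw [v.ord_mul hg0 h0]; omega)

theorem Van.mul_left {g h : F} (hg : Van v g) (hh : 0 ≤ v.ord h) : Van v (h * g) := by
  rw [mul_comm]; exact hg.mul_right hh

theorem van_algebraMap_iff {c : K} : Van v (algebraMap K F c) ↔ c = 0 := by
  constructor
  · rintro (h | h)
    · simpa using h
    · rw [ord_algebraMap] at h; exact absurd h (lt_irrefl _)
  · rintro rfl; simpa using Van.zero

theorem ord_nonneg_add {f g : F} (hf : 0 ≤ v.ord f) (hg : 0 ≤ v.ord g) : 0 ≤ v.ord (f + g) :=
  ord_nonneg_of_mem v (add_mem (mem_of_ord_nonneg v hf) (mem_of_ord_nonneg v hg))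

theorem ord_nonneg_mul {f g : F} (hf : 0 ≤ v.ord f) (hg : 0 ≤ v.ord g) : 0 ≤ v.ord (f * g) :=
  ord_nonneg_of_mem v (mul_mem (mem_of_ord_nonneg v hf) (mem_of_ord_nonneg v hg))

theorem ord_nonneg_sub {f g : F} (hf : 0 ≤ v.ord f) (hg : 0 ≤ v.ord g) : 0 ≤ v.ord (f - g) :=
  ord_nonneg_of_mem v (sub_mem (mem_of_ord_nonneg v hf) (mem_of_ord_nonneg v hg))

theorem ord_nonneg_of_van_sub {f : F} {c : K} (h : Van v (f - algebraMap K F c)) :
    0 ≤ v.ord f := by
  have := ord_nonneg_add h.ord_nonneg (ord_algebraMap v c).ge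
  rwa [sub_add_cancel] at this

end Van

section Ev

variable {K F : Type*} [Field K] [Field F] [Algebra K F] [IsAlgClosed K] [IsFF1 K F]

/-- The value of `f` at the place `v` (and `0` if `f` has a pole at `v`). -/
def ev (v : Place K F) (f : F) : K :=
  if h : 0 ≤ v.ord f then Classical.choose (exists_const_of_ord_nonneg v h) else 0

variable {v : Place K F}

theorem ev_of_ord_neg {f : F} (h : v.ord f < 0) : ev v f = 0 := by
  unfold ev; rw [dif_neg (not_le.mpr h)]

theorem van_sub_ev {f : F} (h : 0 ≤ v.ord f) : Van v (f - algebraMap K F (ev v f)) := by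
  unfold ev; rw [dif_pos h]
  rcases Classical.choose_spec (exists_const_of_ord_nonneg v h) with h1 | h1
  · exact Or.inl (sub_eq_zero.mpr h1)
  · exact Or.inr h1

theorem ev_eq_of_van {f : F} {c : K} (h : Van v (f - algebraMap K F c)) : ev v f = c := by
  have h1 := van_sub_ev (ord_nonneg_of_van_sub h)
  have h2 := h.sub h1
  have h3 : f - algebraMap K F c - (f - algebraMap K F (ev v f))
      = algebraMap K F (ev v f - c) := by rw [map_sub]; ring
  rw [h3, van_algebraMap_iff] at h2
  exact sub_eq_zero.mp h2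

theorem ev_eq_iff {f : F} (hf : 0 ≤ v.ord f) {c : K} :
    ev v f = c ↔ Van v (f - algebraMap K F c) :=
  ⟨fun h => h ▸ van_sub_ev hf, ev_eq_of_van⟩

@[simp] theorem ev_algebraMap (c : K) : ev v (algebraMap K F c) = c :=
  ev_eq_of_van (by rw [sub_self]; exact Van.zero)

@[simp] theorem ev_zero : ev v (0 : F) = 0 := by
  simpa using ev_algebraMap (v := v) (0 : K)

@[simp] theorem ev_one : ev v (1 : F) = 1 := by
  simpa using ev_algebraMap (v := v) (1 : K)

theorem ev_add {f g : F} (hf : 0 ≤ v.ord f) (hg : 0 ≤ v.ord g) :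
    ev v (f + g) = ev v f + ev v g := by
  apply ev_eq_of_van
  have := (van_sub_ev hf).add (van_sub_ev hg)
  convert this using 1
  rw [map_add]; ring

theorem ev_neg (f : F) : ev v (-f) = - ev v f := by
  by_cases hf : 0 ≤ v.ord f
  · apply ev_eq_of_van
    have := (van_sub_ev hf).neg
    convert this using 1
    rw [map_neg]; ring
  · rw [ev_of_ord_neg (not_le.mp hf), ev_of_ord_neg (by rw [ord_neg]; exact not_le.mp hf), neg_zero]

theorem ev_sub {f g : F} (hf : 0 ≤ v.ord f) (hg : 0 ≤ v.ord g) :
    ev v (f - g) = ev v f - ev v g := by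
  rw [sub_eq_add_neg, ev_add hf (by rwa [ord_neg]), ev_neg, sub_eq_add_neg]

theorem ev_mul {f g : F} (hf : 0 ≤ v.ord f) (hg : 0 ≤ v.ord g) :
    ev v (f * g) = ev v f * ev v g := by
  apply ev_eq_of_van
  have := ((van_sub_ev hf).mul_right hg).add
    ((van_sub_ev hg).mul_left (ord_algebraMap v (ev v f)).ge)
  convert this using 1
  rw [map_mul]; ring

theorem ev_eq_zero_iff {f : F} (hf : 0 ≤ v.ord f) : ev v f = 0 ↔ Van v f := by
  rw [ev_eq_iff hf, map_zero, sub_zero]

theorem ev_ne_zero_iff {f : F} (hf0 : f ≠ 0) : ev v f ≠ 0 ↔ v.ord f = 0 := by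
  constructor
  · intro h
    have hf : 0 ≤ v.ord f := by
      by_contra hcon
      exact h (ev_of_ord_neg (not_le.mp hcon))
    rw [Ne, ev_eq_zero_iff hf, Van, not_or, not_lt] at h
    omega
  · intro h
    rw [Ne, ev_eq_zero_iff h.ge, Van, not_or, not_lt]
    exact ⟨hf0, h.le⟩

theorem ev_inv {f : F} (hf : v.ord f = 0) : ev v f⁻¹ = (ev v f)⁻¹ := by
  rcases eq_or_ne f 0 with rfl | hf0
  · simp
  have h1 : ev v (f * f⁻¹) = ev v f * ev v f⁻¹ :=
    ev_mul hf.ge (by rw [v.ord_inv, hf]; simp)
  rw [mul_inv_cancel₀ hf0, ev_one] at h1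
  exact eq_inv_of_mul_eq_one_right h1.symm

theorem ev_pow {f : F} (hf : 0 ≤ v.ord f) (n : ℕ) : ev v (f ^ n) = ev v f ^ n := by
  induction n with
  | zero => simp
  | succ n ih =>
    rw [pow_succ, pow_succ, ev_mul (by rw [ord_pow]; positivity) hf, ih]

theorem ord_aeval_nonneg {f : F} (hf : 0 ≤ v.ord f) (p : K[X]) : 0 ≤ v.ord (aeval f p) := by
  apply ord_nonneg_of_mem
  have : aeval f p ∈ Algebra.adjoin K {f} := by
    rw [Algebra.adjoin_singleton_eq_range_aeval]; exact ⟨p, rfl⟩
  exact adjoin_le_of_ord_nonneg v hf _ this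

theorem ev_aeval {f : F} (hf : 0 ≤ v.ord f) (p : K[X]) :
    ev v (aeval f p) = p.eval (ev v f) := by
  induction p using Polynomial.induction_on' with
  | add p q hp hq =>
    rw [map_add, ev_add (ord_aeval_nonneg hf p) (ord_aeval_nonneg hf q), hp, hq, eval_add]
  | monomial n a =>
    rw [aeval_monomial, ev_mul (ord_algebraMap v a).ge (by rw [ord_pow]; positivity),
      ev_algebraMap, ev_pow hf, eval_monomial]

theorem ord_aevalAeval_nonneg {t y : F} (ht : 0 ≤ v.ord t) (hy : 0 ≤ v.ord y) (P : K[X][Y]) :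
    0 ≤ v.ord (aevalAeval t y P) := by
  induction P using Polynomial.induction_on' with
  | add p q hp hq => rw [map_add]; exact ord_nonneg_add hp hq
  | monomial n a =>
    have : aevalAeval t y (monomial n a) = aeval t a * y ^ n := by
      rw [← C_mul_X_pow_eq_monomial, map_mul, map_pow, aevalAeval_C, aevalAeval_Y]
    rw [this]
    exact ord_nonneg_mul (ord_aeval_nonneg ht a) (by rw [ord_pow]; positivity)

theorem ev_aevalAeval {t y : F} (ht : 0 ≤ v.ord t) (hy : 0 ≤ v.ord y) (P : K[X][Y]) :
    ev v (aevalAeval t y P) = P.evalEval (ev v t) (ev v y) := by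
  induction P using Polynomial.induction_on' with
  | add p q hp hq =>
    rw [map_add, ev_add (ord_aevalAeval_nonneg ht hy p) (ord_aevalAeval_nonneg ht hy q), hp, hq,
      evalEval_add]
  | monomial n a =>
    have : aevalAeval t y (monomial n a) = aeval t a * y ^ n := by
      rw [← C_mul_X_pow_eq_monomial, map_mul, map_pow, aevalAeval_C, aevalAeval_Y]
    rw [this, ev_mul (ord_aeval_nonneg ht a) (by rw [ord_pow]; positivity), ev_aeval ht,
      ev_pow hy, ← C_mul_X_pow_eq_monomial, evalEval_mul, evalEval_pow, evalEval_C, evalEval_X]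

/-- two places at which every function regular at the first is regular at the second agree -/
theorem place_eq_of_le {v w : Place K F}
    (h : ∀ f : F, 0 ≤ v.ord f → 0 ≤ w.ord f) : v = w := by
  apply Place.ext
  refine ValuationSubring.eq_of_le_of_ne_top _ ?_ w.ne_top'
  intro f hf
  exact mem_of_ord_nonneg w (h f (ord_nonneg_of_mem v hf))

end Ev

end Fermat.Agent.S27.C
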