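import Mathlib
import Fermat.Agent.S24.CL.PlaceOfVal
import Fermat.Agent.S27.C.Ev

/-!
# S27, part C: analytic charts on the set of places of a complex function field
Owner: helper262.

* `IsChart t U γ` : `γ : ℂ → Place ℂ F` is an analytic chart on the open set `U`, with coordinate `t`.
* `Param t y U φ` : analytic parametrisation `τ ↦ (τ, φ τ)` of a plane model `(t, y)` of `F`.
* `Param.exists_chart` : a parametrisation yields a chart.
-/

set_option autoImplicit false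
set_option linter.unusedSectionVars false

noncomputable section

namespace Fermat.Agent.S27.C

open AlgebraicCurve Polynomial Fermat.Agent.S24.FF Filter Topology
open scoped Polynomial.Bivariate WithZero

variable {F : Type*} [Field F] [Algebra ℂ F] [IsFF1 ℂ F]

/-- `γ` is an analytic chart on `U` with coordinate function `t`. -/
structure IsChart (t : F) (U : Set ℂ) (γ : ℂ → Place ℂ F) : Prop where
  isOpen : IsOpen U
  ord_sub : ∀ τ ∈ U, (γ τ).ord (t - algebraMap ℂ F τ) = 1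
  meromorphicAt : ∀ (f : F), ∀ τ ∈ U, MeromorphicAt (fun s => ev (γ s) f) τ
  order_eq : ∀ (f : F), f ≠ 0 → ∀ τ ∈ U,
    meromorphicOrderAt (fun s => ev (γ s) f) τ = (((γ τ).ord f : ℤ) : WithTop ℤ)
  analyticAt : ∀ (f : F), ∀ τ ∈ U, 0 ≤ (γ τ).ord f → AnalyticAt ℂ (fun s => ev (γ s) f) τ

/-- An analytic parametrisation `τ ↦ (τ, φ τ)` of the plane model of `F` given by `(t, y)`. -/
structure Param (t y : F) (U : Set ℂ) (φ : ℂ → ℂ) : Prop where
  isOpen : IsOpen U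
  analytic : AnalyticOnNhd ℂ φ U
  ker : ∀ P : ℂ[X][Y], aevalAeval t y P = 0 → ∀ τ ∈ U, P.evalEval τ (φ τ) = 0
  gen : ∀ f : F, ∃ (P : ℂ[X][Y]) (q : ℂ[X]), q ≠ 0 ∧ f * aeval t q = aevalAeval t y P

theorem analyticAt_evalEval {φ : ℂ → ℂ} {τ₀ : ℂ} (hφ : AnalyticAt ℂ φ τ₀) (P : ℂ[X][Y]) :
    AnalyticAt ℂ (fun τ => P.evalEval τ (φ τ)) τ₀ := by
  induction P using Polynomial.induction_on' with
  | add p q hp hq =>
    simp only [evalEval_add]
    exact hp.add hq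
  | monomial n a =>
    have : (fun τ => (monomial n a : ℂ[X][Y]).evalEval τ (φ τ))
        = fun τ => a.eval τ * (φ τ) ^ n := by
      funext τ
      rw [← C_mul_X_pow_eq_monomial, evalEval_mul, evalEval_pow, evalEval_C, evalEval_X]
    rw [this]
    exact ((AnalyticOnNhd.eval_polynomial (𝕜 := ℂ) a) τ₀ (Set.mem_univ _)).mul (hφ.pow n)

theorem eventually_eval_ne_zero {q : ℂ[X]} (hq : q ≠ 0) (τ₀ : ℂ) :
    ∀ᶠ τ in 𝓝[≠] τ₀, q.eval τ ≠ 0 := by
  have h1 : ((q.roots.toFinset.erase τ₀ : Finset ℂ) : Set ℂ)ᶜ ∈ 𝓝 τ₀ :=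
    (Finset.finite_toSet _).isClosed.compl_mem_nhds (by simp)
  rw [eventually_nhdsWithin_iff]
  filter_upwards [h1] with τ hτ hne h0
  apply hτ
  rw [Finset.mem_coe, Finset.mem_erase, Multiset.mem_toFinset]
  exact ⟨hne, (mem_roots hq).mpr h0⟩

/-- conversion of additive orders into `ℤᵐ⁰` -/
def conv (x : WithTop ℤ) : ℤᵐ⁰ := x.recTopCoe 0 (fun n => WithZero.exp (-n))

@[simp] theorem conv_top : conv ⊤ = 0 := rfl
@[simp] theorem conv_coe (n : ℤ) : conv (n : WithTop ℤ) = WithZero.exp (-n) := rfl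

theorem conv_add (a b : WithTop ℤ) : conv (a + b) = conv a * conv b := by
  induction a using WithTop.recTopCoe with
  | top => simp
  | coe a =>
    induction b using WithTop.recTopCoe with
    | top => simp
    | coe b =>
      rw [← WithTop.coe_add, conv_coe, conv_coe, conv_coe, ← WithZero.exp_add]
      congr 1; ring

theorem conv_anti {a b : WithTop ℤ} (h : a ≤ b) : conv b ≤ conv a := by
  induction b using WithTop.recTopCoe with
  | top => simp
  | coe b =>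
    induction a using WithTop.recTopCoe with
    | top => simp at h
    | coe a =>
      rw [conv_coe, conv_coe, WithZero.exp_le_exp]
      have : a ≤ b := by exact_mod_cast h
      omega

theorem conv_min (a b : WithTop ℤ) : conv (min a b) = max (conv a) (conv b) := by
  rcases le_total a b with h | h
  · rw [min_eq_left h, max_eq_left (conv_anti h)]
  · rw [min_eq_right h, max_eq_right (conv_anti h)]

namespace Param

variable {t y : F} {U : Set ℂ} {φ : ℂ → ℂ} (hp : Param t y U φ)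

/-- `g` represents `f` in a punctured neighbourhood of `τ₀`. -/
def IsRep (_ : Param t y U φ) (τ₀ : ℂ) (f : F) (g : ℂ → ℂ) : Prop :=
  ∃ (P : ℂ[X][Y]) (q : ℂ[X]), q ≠ 0 ∧ f * aeval t q = aevalAeval t y P ∧
    g =ᶠ[𝓝[≠] τ₀] fun τ => P.evalEval τ (φ τ) / q.eval τ

/-- a global choice of representing function -/
def repFun (f : F) : ℂ → ℂ := fun τ =>
  (Classical.choose (hp.gen f)).evalEval τ (φ τ) /
    (Classical.choose (Classical.choose_spec (hp.gen f))).eval τ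

/-- the denominator of `repFun` -/
def den (f : F) : ℂ[X] := Classical.choose (Classical.choose_spec (hp.gen f))

theorem den_ne_zero (f : F) : hp.den f ≠ 0 :=
  (Classical.choose_spec (Classical.choose_spec (hp.gen f))).1

theorem isRep_repFun (τ₀ : ℂ) (f : F) : hp.IsRep τ₀ f (hp.repFun f) :=
  ⟨_, _, (Classical.choose_spec (Classical.choose_spec (hp.gen f))).1,
    (Classical.choose_spec (Classical.choose_spec (hp.gen f))).2, EventuallyEq.rfl⟩

theorem analyticAt_repFun {τ₀ : ℂ} (h₀ : τ₀ ∈ U) (f : F) (hd : (hp.den f).eval τ₀ ≠ 0) :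
    AnalyticAt ℂ (hp.repFun f) τ₀ :=
  (analyticAt_evalEval (hp.analytic τ₀ h₀) _).div
    ((AnalyticOnNhd.eval_polynomial (𝕜 := ℂ) _) τ₀ (Set.mem_univ _)) hd

variable {hp} {τ₀ : ℂ}

theorem mem_nhdsNE (hp : Param t y U φ) (h₀ : τ₀ ∈ U) : ∀ᶠ τ in 𝓝[≠] τ₀, τ ∈ U :=
  mem_nhdsWithin_of_mem_nhds (hp.isOpen.mem_nhds h₀)

theorem IsRep.meromorphicAt (h₀ : τ₀ ∈ U) {f : F} {g : ℂ → ℂ} (h : hp.IsRep τ₀ f g) :
    MeromorphicAt g τ₀ := by
  obtain ⟨P, q, _, _, hg⟩ := h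
  refine MeromorphicAt.congr ?_ hg.symm
  exact (analyticAt_evalEval (hp.analytic τ₀ h₀) P).meromorphicAt.div
    ((AnalyticOnNhd.eval_polynomial (𝕜 := ℂ) q) τ₀ (Set.mem_univ _)).meromorphicAt

theorem IsRep.congr {f : F} {g g' : ℂ → ℂ} (h : hp.IsRep τ₀ f g) (hg : g' =ᶠ[𝓝[≠] τ₀] g) :
    hp.IsRep τ₀ f g' := by
  obtain ⟨P, q, h1, h2, h3⟩ := h
  exact ⟨P, q, h1, h2, hg.trans h3⟩

theorem IsRep.unique (h₀ : τ₀ ∈ U) {f : F} {g g' : ℂ → ℂ} (h : hp.IsRep τ₀ f g)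
    (h' : hp.IsRep τ₀ f g') : g =ᶠ[𝓝[≠] τ₀] g' := by
  obtain ⟨P, q, hq, hP, hg⟩ := h
  obtain ⟨P', q', hq', hP', hg'⟩ := h'
  have hker : aevalAeval t y (P * C q' - P' * C q) = 0 := by
    rw [map_sub, map_mul, map_mul, aevalAeval_C, aevalAeval_C, ← hP, ← hP']; ring
  filter_upwards [hg, hg', eventually_eval_ne_zero hq τ₀, eventually_eval_ne_zero hq' τ₀,
    mem_nhdsNE hp h₀] with τ h1 h2 h3 h4 h5
  have := hp.ker _ hker τ h5
  rw [evalEval_sub, evalEval_mul, evalEval_mul, evalEval_C, evalEval_C, sub_eq_zero] at this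
  rw [h1, h2, div_eq_div_iff h3 h4, this]

theorem IsRep.add {f f' : F} {g g' : ℂ → ℂ} (h : hp.IsRep τ₀ f g)
    (h' : hp.IsRep τ₀ f' g') : hp.IsRep τ₀ (f + f') (g + g') := by
  obtain ⟨P, q, hq, hP, hg⟩ := h
  obtain ⟨P', q', hq', hP', hg'⟩ := h'
  refine ⟨P * C q' + P' * C q, q * q', mul_ne_zero hq hq', ?_, ?_⟩
  · rw [map_add, map_mul, map_mul, map_mul, aevalAeval_C, aevalAeval_C, ← hP, ← hP']; ring
  · filter_upwards [hg, hg', eventually_eval_ne_zero hq τ₀, eventually_eval_ne_zero hq' τ₀]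
      with τ h1 h2 h3 h4
    rw [Pi.add_apply, h1, h2, evalEval_add, evalEval_mul, evalEval_mul, evalEval_C, evalEval_C,
      eval_mul]
    field_simp

theorem IsRep.mul {f f' : F} {g g' : ℂ → ℂ} (h : hp.IsRep τ₀ f g)
    (h' : hp.IsRep τ₀ f' g') : hp.IsRep τ₀ (f * f') (g * g') := by
  obtain ⟨P, q, hq, hP, hg⟩ := h
  obtain ⟨P', q', hq', hP', hg'⟩ := h'
  refine ⟨P * P', q * q', mul_ne_zero hq hq', ?_, ?_⟩
  · rw [map_mul, map_mul, ← hP, ← hP']; ring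
  · filter_upwards [hg, hg', eventually_eval_ne_zero hq τ₀, eventually_eval_ne_zero hq' τ₀]
      with τ h1 h2 h3 h4
    rw [Pi.mul_apply, h1, h2, evalEval_mul, eval_mul]
    field_simp

theorem isRep_poly (hp : Param t y U φ) (τ₀ : ℂ) (P : ℂ[X][Y]) :
    hp.IsRep τ₀ (aevalAeval t y P) (fun τ => P.evalEval τ (φ τ)) :=
  ⟨P, 1, one_ne_zero, by simp, by simp⟩

theorem isRep_const (hp : Param t y U φ) (τ₀ : ℂ) (c : ℂ) :
    hp.IsRep τ₀ (algebraMap ℂ F c) (fun _ => c) := by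
  have := isRep_poly hp τ₀ (C (C c))
  simpa using this

theorem isRep_t_sub (hp : Param t y U φ) (τ₀ : ℂ) (c : ℂ) :
    hp.IsRep τ₀ (t - algebraMap ℂ F c) (fun τ => τ - c) := by
  have := isRep_poly hp τ₀ (C (X - C c))
  simpa [evalEval_C] using this

theorem isRep_y (hp : Param t y U φ) (τ₀ : ℂ) : hp.IsRep τ₀ y φ := by
  have := isRep_poly hp τ₀ (X : ℂ[X][Y])
  simpa using this

variable (hp)

/-- the additive order at `τ₀` -/
def nu (τ₀ : ℂ) (f : F) : WithTop ℤ := meromorphicOrderAt (hp.repFun f) τ₀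

variable {hp}

theorem IsRep.nu_eq (h₀ : τ₀ ∈ U) {f : F} {g : ℂ → ℂ} (h : hp.IsRep τ₀ f g) :
    hp.nu τ₀ f = meromorphicOrderAt g τ₀ :=
  meromorphicOrderAt_congr ((hp.isRep_repFun τ₀ f).unique h₀ h)

theorem nu_mul (h₀ : τ₀ ∈ U) (f g : F) : hp.nu τ₀ (f * g) = hp.nu τ₀ f + hp.nu τ₀ g := by
  rw [((hp.isRep_repFun τ₀ f).mul (hp.isRep_repFun τ₀ g)).nu_eq h₀,
    meromorphicOrderAt_mul ((hp.isRep_repFun τ₀ f).meromorphicAt h₀)
      ((hp.isRep_repFun τ₀ g).meromorphicAt h₀)]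
  rfl

theorem nu_add (h₀ : τ₀ ∈ U) (f g : F) :
    min (hp.nu τ₀ f) (hp.nu τ₀ g) ≤ hp.nu τ₀ (f + g) := by
  rw [((hp.isRep_repFun τ₀ f).add (hp.isRep_repFun τ₀ g)).nu_eq h₀]
  exact meromorphicOrderAt_add ((hp.isRep_repFun τ₀ f).meromorphicAt h₀)
      ((hp.isRep_repFun τ₀ g).meromorphicAt h₀)

theorem nu_const (h₀ : τ₀ ∈ U) (c : ℂ) :
    hp.nu τ₀ (algebraMap ℂ F c) = if c = 0 then ⊤ else 0 := by
  classical
  rw [(isRep_const hp τ₀ c).nu_eq h₀, meromorphicOrderAt_const]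

theorem nu_zero (h₀ : τ₀ ∈ U) : hp.nu τ₀ (0 : F) = ⊤ := by
  have := nu_const (hp := hp) h₀ 0
  simpa using this

theorem nu_one (h₀ : τ₀ ∈ U) : hp.nu τ₀ (1 : F) = 0 := by
  have := nu_const (hp := hp) h₀ 1
  simpa using this

theorem nu_t_sub (h₀ : τ₀ ∈ U) : hp.nu τ₀ (t - algebraMap ℂ F τ₀) = 1 := by
  rw [(isRep_t_sub hp τ₀ τ₀).nu_eq h₀]
  have h1 : MeromorphicAt (fun τ : ℂ => τ - τ₀) τ₀ := by fun_prop
  have : meromorphicOrderAt (fun τ : ℂ => τ - τ₀) τ₀ = ((1 : ℤ) : WithTop ℤ) := by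
    rw [meromorphicOrderAt_eq_int_iff h1]
    exact ⟨fun _ => 1, analyticAt_const, one_ne_zero, by simp⟩
  rw [this]; rfl

theorem nu_ne_top (h₀ : τ₀ ∈ U) {f : F} (hf : f ≠ 0) : hp.nu τ₀ f ≠ ⊤ := by
  intro h
  have h1 := nu_mul (hp := hp) h₀ f f⁻¹
  rw [mul_inv_cancel₀ hf, nu_one h₀, h, top_add] at h1
  exact WithTop.zero_ne_top h1

variable (hp)

/-- the valuation at `τ₀` -/
def valuation (h₀ : τ₀ ∈ U) : Valuation F ℤᵐ⁰ where
  toFun f := conv (hp.nu τ₀ f)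
  map_zero' := by rw [nu_zero h₀, conv_top]
  map_one' := by rw [nu_one h₀]; rfl
  map_mul' f g := by rw [nu_mul h₀, conv_add]
  map_add_le_max' f g := by
    rw [← conv_min]; exact conv_anti (nu_add h₀ f g)

theorem valuation_apply (h₀ : τ₀ ∈ U) (f : F) : hp.valuation h₀ f = conv (hp.nu τ₀ f) := rfl

theorem valuation_const (h₀ : τ₀ ∈ U) (a : ℂ) (ha : a ≠ 0) :
    hp.valuation h₀ (algebraMap ℂ F a) = 1 := by
  rw [valuation_apply, nu_const h₀, if_neg ha]; rfl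

include hp in
theorem t_sub_ne_zero (h₀ : τ₀ ∈ U) : t - algebraMap ℂ F τ₀ ≠ 0 := by
  intro h
  have h1 := nu_t_sub (hp := hp) h₀
  rw [h, nu_zero h₀] at h1
  exact WithTop.top_ne_one h1

theorem valuation_nontrivial (h₀ : τ₀ ∈ U) : ∃ f : F, f ≠ 0 ∧ hp.valuation h₀ f < 1 := by
  refine ⟨t - algebraMap ℂ F τ₀, hp.t_sub_ne_zero h₀, ?_⟩
  rw [valuation_apply, nu_t_sub h₀]
  show WithZero.exp (-(1 : ℤ)) < 1
  rw [← WithZero.exp_zero, WithZero.exp_lt_exp]; omega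

open Classical in
/-- the place at `τ` (and a default place `v₀` outside `U`) -/
def place (v₀ : Place ℂ F) (τ : ℂ) : Place ℂ F :=
  if h : τ ∈ U then
    Fermat.Agent.S24.CL.placeOfValuation (hp.valuation h) (hp.valuation_const h)
      (hp.valuation_nontrivial h)
  else v₀

theorem nu_eq_ord (v₀ : Place ℂ F) (h₀ : τ₀ ∈ U) {f : F} (hf : f ≠ 0) :
    hp.nu τ₀ f = (((hp.place v₀ τ₀).ord f : ℤ) : WithTop ℤ) := by
  unfold place
  rw [dif_pos h₀]
  obtain ⟨m, hm, h⟩ := Fermat.Agent.S24.CL.exists_mul_ord_placeOfValuation (hp.valuation h₀)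
    (hp.valuation_const h₀) (hp.valuation_nontrivial h₀)
  set v := Fermat.Agent.S24.CL.placeOfValuation (hp.valuation h₀) (hp.valuation_const h₀)
    (hp.valuation_nontrivial h₀)
  have h1 := h _ (hp.t_sub_ne_zero h₀)
  rw [valuation_apply, nu_t_sub h₀] at h1
  have h2 : (-(1 : ℤ)) = -((m : ℤ) * v.ord (t - algebraMap ℂ F τ₀)) :=
    WithZero.exp_injective h1
  have hm1 : (m : ℤ) = 1 := by
    have : (m : ℤ) ∣ 1 := ⟨v.ord (t - algebraMap ℂ F τ₀), by omega⟩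
    exact Int.eq_one_of_dvd_one (by omega) this
  have h3 := h f hf
  rw [valuation_apply, hm1, one_mul] at h3
  obtain ⟨n, hn⟩ := WithTop.ne_top_iff_exists.mp (nu_ne_top (hp := hp) h₀ hf)
  rw [← hn, conv_coe] at h3
  have h4 : -n = -v.ord f := WithZero.exp_injective h3
  rw [← hn]
  congr 1
  omega

theorem ord_place_t_sub (v₀ : Place ℂ F) (h₀ : τ₀ ∈ U) :
    (hp.place v₀ τ₀).ord (t - algebraMap ℂ F τ₀) = 1 := by
  have h1 := hp.nu_eq_ord v₀ h₀ (hp.t_sub_ne_zero h₀)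
  rw [nu_t_sub h₀] at h1
  exact_mod_cast h1.symm

/-- the representing functions tend to the value at the place -/
theorem tendsto_of_isRep (v₀ : Place ℂ F) (h₀ : τ₀ ∈ U) {f : F} {g : ℂ → ℂ}
    (hg : hp.IsRep τ₀ f g) (hf : 0 ≤ (hp.place v₀ τ₀).ord f) :
    Tendsto g (𝓝[≠] τ₀) (𝓝 (ev (hp.place v₀ τ₀) f)) := by
  set c := ev (hp.place v₀ τ₀) f with hc
  have hrep : hp.IsRep τ₀ (f - algebraMap ℂ F c) (g + fun _ => -c) := by
    have := hg.add (isRep_const hp τ₀ (-c))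
    rwa [map_neg, ← sub_eq_add_neg] at this
  have key : Tendsto (g + fun _ => -c) (𝓝[≠] τ₀) (𝓝 0) := by
    rcases van_sub_ev hf with h | h
    · rw [← hc] at h
      rw [h] at hrep
      have h2 := hrep.nu_eq h₀
      rw [nu_zero h₀] at h2
      have h3 := meromorphicOrderAt_eq_top_iff.mp h2.symm
      exact tendsto_const_nhds.congr' (h3.mono fun x hx => hx.symm)
    · rw [← hc] at h
      have hne : f - algebraMap ℂ F c ≠ 0 := ne_zero_of_ord_ne_zero _ h.ne'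
      apply tendsto_zero_of_meromorphicOrderAt_pos
      rw [← hrep.nu_eq h₀, hp.nu_eq_ord v₀ h₀ hne]
      exact_mod_cast h
  have := key.add_const c
  simpa using this

/-- if `f` is represented near `τ₀` by a function continuous at `τ₀`, then `f` is regular at the
place and takes the expected value. -/
theorem ord_nonneg_and_ev_of_isRep (v₀ : Place ℂ F) (h₀ : τ₀ ∈ U) {f : F} {g : ℂ → ℂ}
    (hg : hp.IsRep τ₀ f g) (hc : ContinuousAt g τ₀) :
    0 ≤ (hp.place v₀ τ₀).ord f ∧ ev (hp.place v₀ τ₀) f = g τ₀ := by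
  have hord : 0 ≤ (hp.place v₀ τ₀).ord f := by
    rcases eq_or_ne f 0 with rfl | hf
    · simp
    have h1 : 0 ≤ meromorphicOrderAt g τ₀ :=
      (tendsto_nhds_iff_meromorphicOrderAt_nonneg (hg.meromorphicAt h₀)).mp
        ⟨g τ₀, continuousAt_iff_punctured_nhds.mp hc⟩
    rw [← hg.nu_eq h₀, hp.nu_eq_ord v₀ h₀ hf] at h1
    exact_mod_cast h1
  exact ⟨hord, tendsto_nhds_unique (hp.tendsto_of_isRep v₀ h₀ hg hord)
    (continuousAt_iff_punctured_nhds.mp hc)⟩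

theorem ev_place_eventuallyEq (v₀ : Place ℂ F) (h₀ : τ₀ ∈ U) (f : F) :
    (fun s => ev (hp.place v₀ s) f) =ᶠ[𝓝[≠] τ₀] hp.repFun f := by
  filter_upwards [mem_nhdsNE hp h₀, eventually_eval_ne_zero (hp.den_ne_zero f) τ₀] with s hs hd
  exact (hp.ord_nonneg_and_ev_of_isRep v₀ hs (hp.isRep_repFun s f)
    (hp.analyticAt_repFun hs f hd).continuousAt).2

theorem isChart (v₀ : Place ℂ F) : IsChart t U (hp.place v₀) where
  isOpen := hp.isOpen
  ord_sub τ hτ := hp.ord_place_t_sub v₀ hτ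
  meromorphicAt f τ hτ :=
    ((hp.isRep_repFun τ f).meromorphicAt hτ).congr (hp.ev_place_eventuallyEq v₀ hτ f).symm
  order_eq f hf τ hτ := by
    rw [meromorphicOrderAt_congr (hp.ev_place_eventuallyEq v₀ hτ f), ← hp.nu_eq_ord v₀ hτ hf]
    rfl
  analyticAt f τ hτ hf := by
    refine MeromorphicAt.analyticAt
      (((hp.isRep_repFun τ f).meromorphicAt hτ).congr (hp.ev_place_eventuallyEq v₀ hτ f).symm) ?_
    rw [continuousAt_iff_punctured_nhds]
    exact (hp.tendsto_of_isRep v₀ hτ (hp.isRep_repFun τ f) hf).congr'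
      (hp.ev_place_eventuallyEq v₀ hτ f).symm

theorem ord_place_y (v₀ : Place ℂ F) (h₀ : τ₀ ∈ U) : 0 ≤ (hp.place v₀ τ₀).ord y :=
  (hp.ord_nonneg_and_ev_of_isRep v₀ h₀ (isRep_y hp τ₀) (hp.analytic τ₀ h₀).continuousAt).1

theorem ev_place_y (v₀ : Place ℂ F) (h₀ : τ₀ ∈ U) : ev (hp.place v₀ τ₀) y = φ τ₀ :=
  (hp.ord_nonneg_and_ev_of_isRep v₀ h₀ (isRep_y hp τ₀) (hp.analytic τ₀ h₀).continuousAt).2

end Param

namespace IsChart

variable {t : F} {U : Set ℂ} {γ : ℂ → Place ℂ F} (h : IsChart t U γ)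
include h

theorem ord_t_nonneg {τ : ℂ} (hτ : τ ∈ U) : 0 ≤ (γ τ).ord t :=
  ord_nonneg_of_van_sub (c := τ) (Or.inr (by rw [h.ord_sub τ hτ]; exact one_pos))

theorem ev_t {τ : ℂ} (hτ : τ ∈ U) : ev (γ τ) t = τ :=
  ev_eq_of_van (Or.inr (by rw [h.ord_sub τ hτ]; exact one_pos))

theorem injOn : Set.InjOn γ U := by
  intro τ hτ τ' hτ' heq
  rw [← h.ev_t hτ, heq, h.ev_t hτ']

end IsChart

end Fermat.Agent.S27.C
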