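import Mathlib
import Fermat.Agent.S24.CL.Approx
import Fermat.Agent.S27.C.Ev

/-!
# S27, part C: interpolation by elements integral over `K[t]`
Owner: helper262.
-/

set_option autoImplicit false
set_option linter.unusedSectionVars false

noncomputable section

namespace Fermat.Agent.S27.C

open AlgebraicCurve Polynomial Fermat.Agent.S24.FF

variable {K F : Type*} [Field K] [Field F] [Algebra K F] [IsAlgClosed K] [IsFF1 K F]

theorem ord_sum_nonneg {v : Place K F} {ι : Type*} (s : Finset ι) (f : ι → F)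
    (h : ∀ i ∈ s, 0 ≤ v.ord (f i)) : 0 ≤ v.ord (∑ i ∈ s, f i) :=
  ord_nonneg_of_mem v (sum_mem fun i hi => mem_of_ord_nonneg v (h i hi))

theorem ord_prod_nonneg {v : Place K F} {ι : Type*} (s : Finset ι) (f : ι → F)
    (h : ∀ i ∈ s, 0 ≤ v.ord (f i)) : 0 ≤ v.ord (∏ i ∈ s, f i) :=
  ord_nonneg_of_mem v (prod_mem fun i hi => mem_of_ord_nonneg v (h i hi))

theorem ev_sum {v : Place K F} {ι : Type*} (s : Finset ι) (f : ι → F)
    (h : ∀ i ∈ s, 0 ≤ v.ord (f i)) : ev v (∑ i ∈ s, f i) = ∑ i ∈ s, ev v (f i) := by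
  classical
  induction s using Finset.induction_on with
  | empty => simp
  | insert a s ha ih =>
    rw [Finset.sum_insert ha, Finset.sum_insert ha,
      ev_add (h a (Finset.mem_insert_self a s))
        (ord_sum_nonneg s f fun i hi => h i (Finset.mem_insert_of_mem hi)),
      ih fun i hi => h i (Finset.mem_insert_of_mem hi)]

theorem ev_prod {v : Place K F} {ι : Type*} (s : Finset ι) (f : ι → F)
    (h : ∀ i ∈ s, 0 ≤ v.ord (f i)) : ev v (∏ i ∈ s, f i) = ∏ i ∈ s, ev v (f i) := by
  classical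
  induction s using Finset.induction_on with
  | empty => simp
  | insert a s ha ih =>
    rw [Finset.prod_insert ha, Finset.prod_insert ha,
      ev_mul (h a (Finset.mem_insert_self a s))
        (ord_prod_nonneg s f fun i hi => h i (Finset.mem_insert_of_mem hi)),
      ih fun i hi => h i (Finset.mem_insert_of_mem hi)]

theorem ord_nonneg_of_isIntegral {v : Place K F} {t : F} (ht : 0 ≤ v.ord t) {y : F}
    (hy : IsIntegral (Algebra.adjoin K {t}) y) : 0 ≤ v.ord y :=
  ord_nonneg_of_mem v (mem_of_isIntegral v _ (adjoin_le_of_ord_nonneg v ht) hy)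

theorem isIntegral_const (t : F) (c : K) :
    IsIntegral (Algebra.adjoin K {t}) (algebraMap K F c) := by
  rw [IsScalarTower.algebraMap_apply K (Algebra.adjoin K {t}) F c]
  exact isIntegral_algebraMap

/-- **Interpolation**: prescribed values at finitely many places regular for `t`, by an element
integral over `K[t]`. -/
theorem exists_integral_interp [CharZero K] (t : F) (ht : Transcendental K t)
    (s : Finset (Place K F)) (hs : ∀ w ∈ s, 0 ≤ w.ord t) (b : Place K F → K) :
    ∃ y : F, IsIntegral (Algebra.adjoin K {t}) y ∧ ∀ w ∈ s, ev w y = b w := by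
  classical
  have h1 : ∀ v : Place K F, ∃ f : F, v ∈ s → (IsIntegral (Algebra.adjoin K {t}) f ∧ 0 < v.ord f ∧
      ∀ w ∈ s.erase v, w.ord f = 0) := by
    intro v
    by_cases hv : v ∈ s
    · obtain ⟨f, hf⟩ := Fermat.Agent.S24.CL.exists_integral_approx t ht v (hs v hv) (s.erase v)
        (fun w hw => hs w (Finset.mem_of_mem_erase hw)) (Finset.notMem_erase v s)
      exact ⟨f, fun _ => hf⟩
    · exact ⟨0, fun h => absurd h hv⟩
  choose f hf using h1
  set g : Place K F → F := fun v => ∏ w ∈ s.erase v, f w with hg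
  have hfint : ∀ w ∈ s, IsIntegral (Algebra.adjoin K {t}) (f w) := fun w hw => (hf w hw).1
  have hgint : ∀ v, IsIntegral (Algebra.adjoin K {t}) (g v) := fun v =>
    IsIntegral.prod _ fun w hw => hfint w (Finset.mem_of_mem_erase hw)
  have hfreg : ∀ u ∈ s, ∀ w ∈ s, 0 ≤ u.ord (f w) := fun u hu w hw =>
    ord_nonneg_of_isIntegral (hs u hu) (hfint w hw)
  have hgev : ∀ u ∈ s, ∀ v, ev u (g v) = ∏ w ∈ s.erase v, ev u (f w) := fun u hu v =>
    ev_prod _ _ fun w hw => hfreg u hu w (Finset.mem_of_mem_erase hw)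
  have hg0 : ∀ u ∈ s, ∀ v, u ≠ v → ev u (g v) = 0 := by
    intro u hu v huv
    rw [hgev u hu v]
    apply Finset.prod_eq_zero (Finset.mem_erase.mpr ⟨huv, hu⟩)
    rw [ev_eq_zero_iff (hfreg u hu u hu)]
    exact Or.inr (hf u hu).2.1
  have hg1 : ∀ u ∈ s, ev u (g u) ≠ 0 := by
    intro u hu
    rw [hgev u hu u, Finset.prod_ne_zero_iff]
    intro w hw
    have hw' := Finset.mem_erase.mp hw
    have h0 : u.ord (f w) = 0 := (hf w hw'.2).2.2 u (Finset.mem_erase.mpr ⟨hw'.1.symm, hu⟩)
    have hne : f w ≠ 0 := ne_zero_of_ord_ne_zero w (hf w hw'.2).2.1.ne'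
    exact (ev_ne_zero_iff hne).mpr h0
  refine ⟨∑ v ∈ s, algebraMap K F (b v / ev v (g v)) * g v, ?_, ?_⟩
  · exact IsIntegral.sum _ fun v _ => (isIntegral_const t _).mul (hgint v)
  · intro u hu
    have hreg : ∀ v, 0 ≤ u.ord (g v) := fun v => ord_nonneg_of_isIntegral (hs u hu) (hgint v)
    rw [ev_sum _ _ fun v _ => ord_nonneg_mul (ord_algebraMap u _).ge (hreg v),
      Finset.sum_eq_single u]
    · rw [ev_mul (ord_algebraMap u _).ge (hreg u), ev_algebraMap, div_mul_cancel₀ _ (hg1 u hu)]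
    · intro v _ hvu
      rw [ev_mul (ord_algebraMap u _).ge (hreg v), hg0 u hu v hvu.symm, mul_zero]
    · intro h; exact absurd hu h

end Fermat.Agent.S27.C
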