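import Mathlib
import Fermat.Agent.S24.FFSum

/-!
# S27, part C: the plane model `(t, y)` of a function field, `y` integral over `K[t]`
Owner: helper262.
-/

set_option autoImplicit false
set_option linter.unusedSectionVars false
set_option linter.style.haveILetI false

noncomputable section

namespace Fermat.Agent.S27.C

open AlgebraicCurve Polynomial Fermat.Agent.S24.FF IntermediateField
open scoped Polynomial.Bivariate IntermediateField.algebraAdjoinAdjoin

variable {K F : Type*} [Field K] [Field F] [Algebra K F] [IsFF1 K F]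

theorem aeval_algEquiv_symm (t : F) (ht : Transcendental K t) (a : Algebra.adjoin K {t}) :
    aeval t ((Polynomial.algEquivOfTranscendental K t ht).symm a) = (a : F) := by
  obtain ⟨p, rfl⟩ := (Polynomial.algEquivOfTranscendental K t ht).surjective a
  rw [AlgEquiv.symm_apply_apply, algEquivOfTranscendental_apply]
  have := (Polynomial.aeval_algebraMap_apply (A := Algebra.adjoin K {t}) F
    (⟨t, Algebra.self_mem_adjoin_singleton K t⟩ : Algebra.adjoin K {t}) p)
  exact this

theorem aevalAeval_eq_eval₂ (t y : F) (P : K[X][Y]) :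
    aevalAeval t y P = eval₂ (aeval (R := K) t : K[X] →+* F) y P := by
  induction P using Polynomial.induction_on' with
  | add p q hp hq => rw [map_add, eval₂_add, hp, hq]
  | monomial n a =>
    rw [← C_mul_X_pow_eq_monomial, map_mul, map_pow, aevalAeval_C, aevalAeval_Y, eval₂_mul,
      eval₂_pow, eval₂_C, eval₂_X]
    rfl

theorem aevalAeval_map_symm (t : F) (ht : Transcendental K t) (y : F)
    (R : (Algebra.adjoin K {t})[X]) :
    aevalAeval t y (R.map
      ((Polynomial.algEquivOfTranscendental K t ht).symm : Algebra.adjoin K {t} →+* K[X]))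
      = aeval y R := by
  rw [aevalAeval_eq_eval₂, eval₂_map, aeval_def]
  congr 1
  ext a
  exact aeval_algEquiv_symm t ht a

theorem exists_model (t : F) (ht : Transcendental K t) (y : F)
    (hy : IsIntegral (Algebra.adjoin K {t}) y) :
    ∃ μ : K[X][Y], μ.Monic ∧ μ.natDegree ≤ Module.finrank K⟮t⟯ F ∧ aevalAeval t y μ = 0 ∧
      (∀ P : K[X][Y], aevalAeval t y P = 0 → μ ∣ P) ∧
      (μ.natDegree = Module.finrank K⟮t⟯ F → ∀ f : F, ∃ (P : K[X][Y]) (q : K[X]),
        q ≠ 0 ∧ f * aeval t q = aevalAeval t y P) := by
  haveI : FiniteDimensional K⟮t⟯ F := IsFF1.finite t ht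
  haveI := isPrincipalIdealRing_adjoin t ht
  set e := Polynomial.algEquivOfTranscendental K t ht with he
  have hmin : minpoly K⟮t⟯ y = (minpoly (Algebra.adjoin K {t}) y).map
      (algebraMap (Algebra.adjoin K {t}) K⟮t⟯) :=
    minpoly.isIntegrallyClosed_eq_field_fractions' K⟮t⟯ hy
  have hmonic := minpoly.monic hy
  have hdeg : ((minpoly (Algebra.adjoin K {t}) y).map
      (e.symm : Algebra.adjoin K {t} →+* K[X])).natDegree = (minpoly K⟮t⟯ y).natDegree := by
    rw [hmin, hmonic.natDegree_map, hmonic.natDegree_map]
  refine ⟨(minpoly (Algebra.adjoin K {t}) y).map (e.symm : Algebra.adjoin K {t} →+* K[X]),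
    hmonic.map _, ?_, ?_, ?_, ?_⟩
  · rw [hdeg]
    exact minpoly.natDegree_le y
  · rw [aevalAeval_map_symm, minpoly.aeval]
  · intro P hP
    have h1 : P = (P.map (e : K[X] →+* Algebra.adjoin K {t})).map
        (e.symm : Algebra.adjoin K {t} →+* K[X]) := by
      rw [Polynomial.map_map]
      have : ((e.symm : Algebra.adjoin K {t} →+* K[X]).comp (e : K[X] →+* Algebra.adjoin K {t}))
          = RingHom.id _ := RingHom.ext fun x => by simp
      rw [this, Polynomial.map_id]
    rw [h1, aevalAeval_map_symm] at hP
    have h2 := minpoly.isIntegrallyClosed_dvd hy hP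
    rw [h1]
    exact Polynomial.map_dvd _ h2
  · intro hd f
    rw [hdeg] at hd
    have htop : K⟮t⟯⟮y⟯ = ⊤ := (Field.primitive_element_iff_minpoly_natDegree_eq K⟮t⟯ y).mpr hd
    have hf : f ∈ K⟮t⟯⟮y⟯.toSubalgebra := by
      rw [htop]; trivial
    rw [IntermediateField.adjoin_simple_toSubalgebra_of_isAlgebraic
      (IsAlgebraic.of_finite K⟮t⟯ y), Algebra.adjoin_singleton_eq_range_aeval] at hf
    obtain ⟨r, hr⟩ := hf
    obtain ⟨b, hb, hbr⟩ := IsLocalization.integerNormalization_spec
      (nonZeroDivisors (Algebra.adjoin K {t})) r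
    refine ⟨(IsLocalization.integerNormalization (nonZeroDivisors (Algebra.adjoin K {t})) r).map
      (e.symm : Algebra.adjoin K {t} →+* K[X]), e.symm b, ?_, ?_⟩
    · intro h0
      have : b = 0 := by
        have := congrArg e h0
        simpa using this
      exact nonZeroDivisors.ne_zero hb this
    · rw [aevalAeval_map_symm, aeval_algEquiv_symm]
      have h3 : aeval y (IsLocalization.integerNormalization
          (nonZeroDivisors (Algebra.adjoin K {t})) r)
          = aeval y ((IsLocalization.integerNormalization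
          (nonZeroDivisors (Algebra.adjoin K {t})) r).map
            (algebraMap (Algebra.adjoin K {t}) K⟮t⟯)) := by
        rw [aeval_map_algebraMap]
      rw [h3, hbr, ← algebraMap_smul K⟮t⟯ b r, map_smul]
      have hr' : aeval y r = f := hr
      rw [hr', Algebra.smul_def, mul_comm]
      rfl

end Fermat.Agent.S27.C
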