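import Mathlib

/-!
# S27, part C: analytic continuation of a simple root of a bivariate polynomial
Owner: helper262.
-/

set_option autoImplicit false

noncomputable section

namespace Fermat.Agent.S27.C

open Polynomial Filter Topology
open scoped Polynomial.Bivariate ContDiff

theorem analyticAt_evalEval₂ {E : Type*} [NormedAddCommGroup E] [NormedSpace ℂ E]
    {f g : E → ℂ} {x : E} (hf : AnalyticAt ℂ f x) (hg : AnalyticAt ℂ g x) (P : ℂ[X][Y]) :
    AnalyticAt ℂ (fun z => P.evalEval (f z) (g z)) x := by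
  induction P using Polynomial.induction_on' with
  | add p q hp hq =>
    simp only [evalEval_add]
    exact hp.add hq
  | monomial n a =>
    have : (fun z => (monomial n a : ℂ[X][Y]).evalEval (f z) (g z))
        = fun z => aeval (f z) a * (g z) ^ n := by
      funext z
      rw [← C_mul_X_pow_eq_monomial, evalEval_mul, evalEval_pow, evalEval_C, evalEval_X,
        coe_aeval_eq_eval]
    rw [this]
    exact (hf.aeval_polynomial a).mul (hg.pow n)

theorem exists_analytic_root (μ : ℂ[X][Y]) (a b : ℂ) (h0 : μ.evalEval a b = 0)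
    (h1 : (derivative μ).evalEval a b ≠ 0) :
    ∃ ψ : ℂ → ℂ, AnalyticAt ℂ ψ a ∧ ψ a = b ∧ ∀ᶠ τ in 𝓝 a, μ.evalEval τ (ψ τ) = 0 := by
  set G : ℂ × ℂ → ℂ := fun p => μ.evalEval p.1 p.2 with hG
  have hGan : AnalyticAt ℂ G (a, b) := analyticAt_evalEval₂ analyticAt_fst analyticAt_snd μ
  have hcd : ContDiffAt ℂ ω G (a, b) := hGan.contDiffAt
  have hL : HasFDerivAt G (fderiv ℂ G (a, b)) (a, b) := hGan.differentiableAt.hasFDerivAt
  have h2 : HasFDerivAt (fun z : ℂ => G (a, z))
      ((fderiv ℂ G (a, b)).comp (ContinuousLinearMap.inr ℂ ℂ ℂ)) b :=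
    hL.comp b (hasFDerivAt_prodMk_right a b)
  have h3 : HasDerivAt (fun z : ℂ => G (a, z)) ((derivative μ).evalEval a b) b := by
    have h4 : (fun z : ℂ => G (a, z)) = fun z => (μ.map (evalRingHom a)).eval z := by
      funext z
      rw [map_evalRingHom_eval]
    rw [h4, ← map_evalRingHom_eval, ← derivative_map]
    exact Polynomial.hasDerivAt _ _
  have h5 := h2.unique h3.hasFDerivAt
  have hinv : ((fderiv ℂ G (a, b)).comp (ContinuousLinearMap.inr ℂ ℂ ℂ)).IsInvertible := by
    rw [h5]
    refine ⟨ContinuousLinearEquiv.unitsEquivAut ℂ (Units.mk0 _ h1), ?_⟩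
    ext
    simp
  refine ⟨hcd.implicitFunction (by simp) hinv, ?_, ?_, ?_⟩
  · exact (hcd.contDiffAt_implicitFunction (by simp) hinv).analyticAt
  · exact hcd.implicitFunction_apply_self (by simp) hinv
  · have := hcd.eventually_apply_implicitFunction (by simp) hinv
    filter_upwards [this] with τ hτ
    have h6 : G (a, b) = 0 := h0
    rw [h6] at hτ
    exact hτ

end Fermat.Agent.S27.C
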