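import Mathlib
import Fermat.Agent.S27.C.Chart
import Fermat.Agent.S27.C.Model
import Fermat.Agent.S27.C.Interp
import Fermat.Agent.S27.C.Root

/-!
# S27, part C: the analytic sheets over a reduced fibre of `t`
Owner: helper262.
-/

set_option autoImplicit false
set_option linter.unusedSectionVars false

noncomputable section

namespace Fermat.Agent.S27.C

open AlgebraicCurve Polynomial Fermat.Agent.S24.FF Filter Topology IntermediateField
open scoped Polynomial.Bivariate

/-- a monic polynomial of degree `≤ n` with `n` distinct roots has degree `n` and only simple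
roots -/
theorem simple_roots_of_card {p : ℂ[X]} (hp : p.Monic) (R : Finset ℂ)
    (hR : ∀ z ∈ R, p.eval z = 0) (hcard : p.natDegree ≤ R.card) :
    p.natDegree = R.card ∧ ∀ z ∈ R, (derivative p).eval z ≠ 0 := by
  classical
  have hp0 : p ≠ 0 := hp.ne_zero
  have hsub : R ⊆ p.roots.toFinset := by
    intro z hz
    rw [Multiset.mem_toFinset, mem_roots hp0]
    exact hR z hz
  have h1 : R.card ≤ p.roots.toFinset.card := Finset.card_le_card hsub
  have h2 : p.roots.toFinset.card ≤ Multiset.card p.roots := Multiset.toFinset_card_le _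
  have h3 : Multiset.card p.roots ≤ p.natDegree := card_roots' p
  have hnodup : p.roots.Nodup := by
    rw [← Multiset.toFinset_card_eq_card_iff_nodup]; omega
  refine ⟨by omega, fun z hz hd => ?_⟩
  have h4 : 1 < rootMultiplicity z p :=
    (one_lt_rootMultiplicity_iff_isRoot hp0).mpr ⟨hR z hz, hd⟩
  have h5 := Multiset.nodup_iff_count_le_one.mp hnodup z
  rw [count_roots] at h5
  omega

variable {F : Type*} [Field F] [Algebra ℂ F] [IsFF1 ℂ F]

theorem card_eq_finrank_of_reduced (t : F) (ht : Transcendental ℂ t) (a : ℂ)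
    (s : Finset (Place ℂ F)) (hs : ∀ v, v ∈ s ↔ 0 < v.ord (t - algebraMap ℂ F a))
    (hred : ∀ v ∈ s, v.ord (t - algebraMap ℂ F a) = 1) :
    s.card = Module.finrank ℂ⟮t⟯ F := by
  obtain ⟨s', hs', hsum⟩ := exists_finset_ord_pos (t - algebraMap ℂ F a)
    (transcendental_sub_const ht a)
  have hss : s' = s := by
    ext v; rw [hs, hs']
  rw [hss, adjoin_simple_sub_const, Finset.sum_congr rfl hred] at hsum
  simpa using hsum

/-- **Sheets over a reduced fibre.** -/
theorem exists_sheets (t : F) (ht : Transcendental ℂ t) (a : ℂ) (s : Finset (Place ℂ F))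
    (hs : ∀ v, v ∈ s ↔ 0 < v.ord (t - algebraMap ℂ F a))
    (hred : ∀ v ∈ s, v.ord (t - algebraMap ℂ F a) = 1) :
    ∃ (r : ℝ) (γ : Place ℂ F → ℂ → Place ℂ F) (y : F) (φ : Place ℂ F → ℂ → ℂ), 0 < r ∧
      IsIntegral (Algebra.adjoin ℂ {t}) y ∧
      (∀ v ∈ s, IsChart t (Metric.ball a r) (γ v)) ∧
      (∀ v ∈ s, γ v a = v) ∧
      (∀ v ∈ s, AnalyticOnNhd ℂ (φ v) (Metric.ball a r)) ∧
      (∀ v ∈ s, ∀ τ ∈ Metric.ball a r, ev (γ v τ) y = φ v τ) ∧
      (∀ τ ∈ Metric.ball a r, Set.InjOn (fun v => φ v τ) s) ∧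
      (∀ τ ∈ Metric.ball a r, ∀ w : Place ℂ F, 0 < w.ord (t - algebraMap ℂ F τ) →
        ∃ v ∈ s, w = γ v τ) := by
  classical
  have hcard := card_eq_finrank_of_reduced t ht a s hs hred
  have hreg : ∀ w ∈ s, 0 ≤ w.ord t := fun w hw =>
    ord_nonneg_of_van_sub (c := a) (Or.inr ((hs w).mp hw))
  have hevt : ∀ w ∈ s, ev w t = a := fun w hw => ev_eq_of_van (Or.inr ((hs w).mp hw))
  -- separating values
  set b : Place ℂ F → ℂ := fun v => if h : v ∈ s then ((s.equivFin ⟨v, h⟩ : ℕ) : ℂ) else 0 with hb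
  have hbinj : Set.InjOn b s := by
    intro v hv w hw hvw
    have hv' : v ∈ s := hv
    have hw' : w ∈ s := hw
    simp only [hb, dif_pos hv', dif_pos hw', Nat.cast_inj] at hvw
    have := s.equivFin.injective (Fin.ext hvw)
    exact congrArg Subtype.val this
  obtain ⟨y, hyint, hyev⟩ := exists_integral_interp t ht s hreg b
  have hyreg : ∀ w : Place ℂ F, 0 ≤ w.ord t → 0 ≤ w.ord y := fun w hw =>
    ord_nonneg_of_isIntegral hw hyint
  obtain ⟨μ, hmonic, hdeg, hμ0, hdvd, hgen⟩ := exists_model t ht y hyint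
  -- the fibre polynomial
  have hroot : ∀ v ∈ s, μ.evalEval a (b v) = 0 := by
    intro v hv
    have := ev_aevalAeval (v := v) (hreg v hv) (hyreg v (hreg v hv)) μ
    rw [hμ0, ev_zero, hevt v hv, hyev v hv] at this
    exact this.symm
  have hsimple := simple_roots_of_card (p := μ.map (evalRingHom a)) (hmonic.map _) (s.image b)
    (by
      intro z hz
      obtain ⟨v, hv, rfl⟩ := Finset.mem_image.mp hz
      rw [map_evalRingHom_eval]; exact hroot v hv)
    (by
      rw [hmonic.natDegree_map, Finset.card_image_of_injOn hbinj, hcard]; exact hdeg)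
  rw [hmonic.natDegree_map, Finset.card_image_of_injOn hbinj, hcard] at hsimple
  have hgen' := hgen hsimple.1
  have hder : ∀ v ∈ s, (derivative μ).evalEval a (b v) ≠ 0 := by
    intro v hv
    have := hsimple.2 (b v) (Finset.mem_image_of_mem b hv)
    rwa [derivative_map, map_evalRingHom_eval] at this
  -- analytic roots
  have hex : ∀ v : Place ℂ F, ∃ ψ : ℂ → ℂ, v ∈ s →
      (AnalyticAt ℂ ψ a ∧ ψ a = b v ∧ ∀ᶠ τ in 𝓝 a, μ.evalEval τ (ψ τ) = 0) := by
    intro v
    by_cases hv : v ∈ s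
    · obtain ⟨ψ, hψ⟩ := exists_analytic_root μ a (b v) (hroot v hv) (hder v hv)
      exact ⟨ψ, fun _ => hψ⟩
    · exact ⟨0, fun h => absurd h hv⟩
  choose ψ hψ using hex
  have hev1 : ∀ᶠ τ in 𝓝 a, ∀ v ∈ s, AnalyticAt ℂ (ψ v) τ ∧ μ.evalEval τ (ψ v τ) = 0 := by
    rw [eventually_all_finset]
    intro v hv
    exact (hψ v hv).1.eventually_analyticAt.and (hψ v hv).2.2
  have hev2 : ∀ᶠ τ in 𝓝 a, ∀ v ∈ s, ∀ w ∈ s, v ≠ w → ψ v τ ≠ ψ w τ := by
    rw [eventually_all_finset]
    intro v hv
    rw [eventually_all_finset]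
    intro w hw
    by_cases hvw : v = w
    · exact Eventually.of_forall fun τ h => absurd hvw h
    · have hc : ContinuousAt (fun τ => ψ v τ - ψ w τ) a :=
        (hψ v hv).1.continuousAt.sub (hψ w hw).1.continuousAt
      have hne : ψ v a - ψ w a ≠ 0 := by
        rw [(hψ v hv).2.1, (hψ w hw).2.1, sub_ne_zero]
        exact fun h => hvw (hbinj hv hw h)
      filter_upwards [hc.eventually_ne hne] with τ hτ _
      exact sub_ne_zero.mp hτ
  obtain ⟨r, hr, hball⟩ := Metric.eventually_nhds_iff_ball.mp (hev1.and hev2)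
  have hp : ∀ v ∈ s, Param t y (Metric.ball a r) (ψ v) := fun v hv =>
    { isOpen := Metric.isOpen_ball
      analytic := fun τ hτ => ((hball τ hτ).1 v hv).1
      ker := fun P hP τ hτ => by
        obtain ⟨Q, rfl⟩ := hdvd P hP
        rw [evalEval_mul, ((hball τ hτ).1 v hv).2, zero_mul]
      gen := hgen' }
  set γ : Place ℂ F → ℂ → Place ℂ F := fun v =>
    if h : v ∈ s then (hp v h).place v else fun _ => v with hγ
  have hγv : ∀ v (h : v ∈ s), γ v = (hp v h).place v := fun v h => by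
    simp only [hγ, dif_pos h]
  have hchart : ∀ v ∈ s, IsChart t (Metric.ball a r) (γ v) := fun v hv => by
    rw [hγv v hv]; exact (hp v hv).isChart v
  have hevy : ∀ v ∈ s, ∀ τ ∈ Metric.ball a r, ev (γ v τ) y = ψ v τ := fun v hv τ hτ => by
    rw [hγv v hv]; exact (hp v hv).ev_place_y v hτ
  have hinj : ∀ τ ∈ Metric.ball a r, Set.InjOn (fun v => ψ v τ) s := by
    intro τ hτ v hv w hw hvw
    by_contra hne
    exact (hball τ hτ).2 v hv w hw hne hvw
  refine ⟨r, γ, y, ψ, hr, hyint, hchart, ?_, fun v hv τ hτ => ((hball τ hτ).1 v hv).1, hevy,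
    hinj, ?_⟩
  · intro v hv
    have ha : a ∈ Metric.ball a r := Metric.mem_ball_self hr
    have h1 : γ v a ∈ s := by
      rw [hs, (hchart v hv).ord_sub a ha]; exact one_pos
    apply hbinj h1 hv
    rw [← hyev _ h1, hevy v hv a ha, (hψ v hv).2.1]
  · intro τ hτ w hw
    obtain ⟨s', hs', hsum⟩ := exists_finset_ord_pos (t - algebraMap ℂ F τ)
      (transcendental_sub_const ht τ)
    rw [adjoin_simple_sub_const, ← hcard] at hsum
    set I : Finset (Place ℂ F) := s.image (fun v => γ v τ) with hI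
    have hIinj : Set.InjOn (fun v => γ v τ) s := by
      intro v hv v' hv' h
      apply hinj τ hτ hv hv'
      show ψ v τ = ψ v' τ
      rw [← hevy v hv τ hτ, ← hevy v' hv' τ hτ]
      exact congrArg (fun p => ev p y) h
    have hIsub : I ⊆ s' := by
      intro p hp'
      obtain ⟨v, hv, rfl⟩ := Finset.mem_image.mp hp'
      rw [hs', (hchart v hv).ord_sub τ hτ]; exact one_pos
    have hIsum : ∑ p ∈ I, p.ord (t - algebraMap ℂ F τ) = s.card := by
      rw [hI, Finset.sum_image hIinj, Finset.sum_congr rfl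
        (fun v hv => (hchart v hv).ord_sub τ hτ)]
      simp
    have hdiff : ∑ p ∈ s' \ I, p.ord (t - algebraMap ℂ F τ) = 0 := by
      have := Finset.sum_sdiff (f := fun p : Place ℂ F => p.ord (t - algebraMap ℂ F τ)) hIsub
      rw [hIsum, hsum] at this
      omega
    have hwI : w ∈ I := by
      by_contra hwI
      have hw' : w ∈ s' \ I := Finset.mem_sdiff.mpr ⟨(hs' w).mpr hw, hwI⟩
      have := (Finset.sum_eq_zero_iff_of_nonneg (fun p hp' =>
        ((hs' p).mp (Finset.mem_sdiff.mp hp').1).le)).mp hdiff w hw'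
      omega
    obtain ⟨v, hv, rfl⟩ := Finset.mem_image.mp hwI
    exact ⟨v, hv, rfl⟩

end Fermat.Agent.S27.C
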